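import Mathlib

/-!
# Row LT, tower T2, sub-leaf T2.07.15 (helper322): the abstract mean-value bound

OFF-MAIN, Mathlib only.  `(X, μ)`, `(P, ρ)` finite measure spaces, `u : X → P → ℂ` jointly
measurable and bounded, `∫ ‖u(g,p)‖² dμ(g) ≤ N` for every `p`, `‖v(g)‖ ≤ ∫ ‖u(g,p)‖ dρ(p)`.
Then `∫ ‖v‖² dμ ≤ ρ(P)² N` (Cauchy--Schwarz in `p`, Fubini).
-/

set_option autoImplicit false

open MeasureTheory

noncomputable section

namespace Fermat.Agent.LT.T2.H322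

/-- Cauchy--Schwarz on a finite measure space: `(∫ a)² ≤ ρ(P) ∫ a²`. -/
theorem sq_integral_le322 {P : Type*} [MeasurableSpace P] (ρ : Measure P) [IsFiniteMeasure ρ]
    (a : P → ℝ) (ha : Integrable a ρ) (ha2 : Integrable (fun p => a p ^ 2) ρ) :
    (∫ p, a p ∂ρ) ^ 2 ≤ ρ.real Set.univ * ∫ p, a p ^ 2 ∂ρ := by
  have key : ∀ m : ℝ,
      0 ≤ ρ.real Set.univ * (m * m) + (-2 * ∫ p, a p ∂ρ) * m + ∫ p, a p ^ 2 ∂ρ := by
    intro m
    have h1 : 0 ≤ ∫ p, (a p - m) ^ 2 ∂ρ := integral_nonneg (fun p => sq_nonneg _)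
    have h2 : ∫ p, (a p - m) ^ 2 ∂ρ = ∫ p, ((a p ^ 2 - 2 * m * a p) + m ^ 2) ∂ρ := by
      congr 1; ext p; ring
    have h3 : ∫ p, ((a p ^ 2 - 2 * m * a p) + m ^ 2) ∂ρ
        = ∫ p, a p ^ 2 ∂ρ - 2 * m * ∫ p, a p ∂ρ + ρ.real Set.univ * m ^ 2 := by
      have e1 := integral_add (μ := ρ) (f := fun p => a p ^ 2 - 2 * m * a p)
        (g := fun _ => m ^ 2) (ha2.sub (ha.const_mul _)) (integrable_const _)
      have e2 := integral_sub (μ := ρ) (f := fun p => a p ^ 2)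
        (g := fun p => 2 * m * a p) ha2 (ha.const_mul _)
      have e3 : ∫ p, 2 * m * a p ∂ρ = 2 * m * ∫ p, a p ∂ρ := integral_const_mul _ _
      have e4 : ∫ _p : P, m ^ 2 ∂ρ = ρ.real Set.univ * m ^ 2 := by
        rw [integral_const, smul_eq_mul]
      rw [e1, e2, e3, e4]
    rw [h2, h3] at h1
    nlinarith [h1]
  have h := discrim_le_zero key
  unfold discrim at h
  nlinarith [h]

/-- **The abstract mean-value bound.** -/
theorem abs_mean_bound322 {X P : Type*} [MeasurableSpace X] [MeasurableSpace P]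
    (μ : Measure X) [IsFiniteMeasure μ] (ρ : Measure P) [IsFiniteMeasure ρ]
    (u : X → P → ℂ) (hu : Measurable (Function.uncurry u))
    (B : ℝ) (hB : ∀ g p, ‖u g p‖ ≤ B)
    (N : ℝ) (hN : ∀ p, ∫ g, ‖u g p‖ ^ 2 ∂μ ≤ N)
    (v : X → ℂ) (hv : ∀ g, ‖v g‖ ≤ ∫ p, ‖u g p‖ ∂ρ) :
    ∫ g, ‖v g‖ ^ 2 ∂μ ≤ ρ.real Set.univ ^ 2 * N := by
  -- the two real functions on the product
  have hm1 : Measurable (fun z : X × P => ‖u z.1 z.2‖) := hu.norm
  have hm2 : Measurable (fun z : X × P => ‖u z.1 z.2‖ ^ 2) := hm1.pow_const 2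
  have hi2 : Integrable (fun z : X × P => ‖u z.1 z.2‖ ^ 2) (μ.prod ρ) := by
    refine Integrable.of_bound hm2.aestronglyMeasurable (B ^ 2) (Filter.Eventually.of_forall ?_)
    intro z
    rw [Real.norm_eq_abs, abs_of_nonneg (by positivity)]
    exact pow_le_pow_left₀ (norm_nonneg _) (hB _ _) 2
  -- sections
  have hs1 : ∀ g, Integrable (fun p => ‖u g p‖) ρ := by
    intro g
    have hmg : Measurable (fun p => ‖u g p‖) := hm1.comp measurable_prodMk_left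
    refine Integrable.of_bound hmg.aestronglyMeasurable B (Filter.Eventually.of_forall ?_)
    intro p
    rw [Real.norm_eq_abs, abs_of_nonneg (norm_nonneg _)]
    exact hB g p
  have hs2 : ∀ g, Integrable (fun p => ‖u g p‖ ^ 2) ρ := by
    intro g
    have hmg : Measurable (fun p => ‖u g p‖ ^ 2) := hm2.comp measurable_prodMk_left
    refine Integrable.of_bound hmg.aestronglyMeasurable (B ^ 2) (Filter.Eventually.of_forall ?_)
    intro p
    rw [Real.norm_eq_abs, abs_of_nonneg (by positivity)]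
    exact pow_le_pow_left₀ (norm_nonneg _) (hB _ _) 2
  -- Step 1: pointwise Cauchy--Schwarz
  have step1 : ∀ g, ‖v g‖ ^ 2 ≤ ρ.real Set.univ * ∫ p, ‖u g p‖ ^ 2 ∂ρ := by
    intro g
    have h1 : ‖v g‖ ^ 2 ≤ (∫ p, ‖u g p‖ ∂ρ) ^ 2 :=
      pow_le_pow_left₀ (norm_nonneg _) (hv g) 2
    exact h1.trans (sq_integral_le322 ρ _ (hs1 g) (hs2 g))
  -- Step 2: integrate in `g`
  have hI : Integrable (fun g => ∫ p, ‖u g p‖ ^ 2 ∂ρ) μ := hi2.integral_prod_left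
  have step2 : ∫ g, ‖v g‖ ^ 2 ∂μ ≤ ∫ g, ρ.real Set.univ * ∫ p, ‖u g p‖ ^ 2 ∂ρ ∂μ := by
    refine integral_mono_of_nonneg (Filter.Eventually.of_forall fun g => by positivity)
      (hI.const_mul _) (Filter.Eventually.of_forall step1)
  -- Step 3: Fubini
  have step3 : ∫ g, ∫ p, ‖u g p‖ ^ 2 ∂ρ ∂μ = ∫ p, ∫ g, ‖u g p‖ ^ 2 ∂μ ∂ρ :=
    integral_integral_swap (f := fun g p => ‖u g p‖ ^ 2) hi2
  have hJ : Integrable (fun p => ∫ g, ‖u g p‖ ^ 2 ∂μ) ρ := hi2.integral_prod_right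
  have step4 : ∫ p, ∫ g, ‖u g p‖ ^ 2 ∂μ ∂ρ ≤ ρ.real Set.univ * N := by
    have h := integral_mono hJ (integrable_const N) hN
    rwa [integral_const, smul_eq_mul] at h
  have hR : 0 ≤ ρ.real Set.univ := measureReal_nonneg
  calc ∫ g, ‖v g‖ ^ 2 ∂μ ≤ ∫ g, ρ.real Set.univ * ∫ p, ‖u g p‖ ^ 2 ∂ρ ∂μ := step2
    _ = ρ.real Set.univ * ∫ g, ∫ p, ‖u g p‖ ^ 2 ∂ρ ∂μ := integral_const_mul _ _
    _ = ρ.real Set.univ * ∫ p, ∫ g, ‖u g p‖ ^ 2 ∂μ ∂ρ := by rw [step3]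
    _ ≤ ρ.real Set.univ * (ρ.real Set.univ * N) := mul_le_mul_of_nonneg_left step4 hR
    _ = ρ.real Set.univ ^ 2 * N := by ring

end Fermat.Agent.LT.T2.H322

end
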