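import Mathlib
import Fermat.Agent.LT.H556.A0
import Fermat.Agent.LT.T1.Spec
import Fermat.Agent.LT.T2.Spec
import Fermat.Agent.LT.T2.H322.MeanAbs

/-!
# Row LT, tower T2, sub-leaf T2.07.15 `SubMeanBdd429` (helper322): the sphere and circle means
are bounded in `L²` on the cusp functions

OFF-MAIN.  Vocabulary: `LT/H556/A0.lean`, `LT/T1/Spec.lean`, `LT/T2/Spec.lean` (byte-identical
copies; only `Frame`, `IsCuspFn`, `pair`, `nsq`, `sphereMean`, `circleMean`, `IsSphereAt`,
`IsCircleAt`, `IsDiagPosScalar`, `T1.ratG` are used).  Nothing is assumed, no opaque constant, no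
placeholder proof.

* `diagPos_inv322`: a function which is right invariant under the positive scalars at EVERY
  infinite place (`A0.IsArchPosScalar`) is right invariant under `Z⁺` (`T2.IsDiagPosScalar`).
  (A diagonal positive scalar is the product of its local components, `diagPos_eq_prod322`.)
* `TranslInv322 F` = the statement of T2.07.00 (`SubTransl429`) for the frame `F`;
  `LocCont322 K` = the statement of T2.07.30 (`SubLocCont429`).
* `int_sq_transl322`: `∫_D |φ(g h)|² = ∫_D |φ(g)|²` for a cusp function (from `TranslInv322`).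
* `meanBdd_general322`: for ANY finite measure `ρ` on a second countable space `P`, any continuous
  `Y : P → G K` and any `v` with `|v(g)| ≤ ∫ |φ(g Y(p))| dρ(p)`: `‖v‖² ≤ ρ(P)² ‖φ‖²`.
  (Also usable for the Hecke sums and for the convolutions: T2.07.03, T2.07.09.)
* `sphereBdd322`, `circleBdd322`: the two clauses of `SubMeanBdd429`, constants
  `(2π · π)²`, resp. `(2π)²` (as `ρ.real univ ^ 2`).
-/

set_option autoImplicit false

open IsDedekindDomain NumberField MeasureTheory
open Fermat.Agent.LT.H556.A0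
open Fermat.Agent.LT.T2

noncomputable section

namespace Fermat.Agent.LT.T2.H322

variable {K : Type} [Field K] [NumberField K]

attribute [local instance] Fermat.Agent.LT.T2.borelG
attribute [local instance] Classical.propDecidable

/-! ## 1. Invariance under the diagonal positive scalars -/

/-- The adele which is `a` at the infinite place `w` and `1` at every other place. -/
def locAdele322 (w : InfinitePlace K) (a : w.Completion) : Adl K :=
  ((Pi.mulSingle w a : InfiniteAdeleRing K), (1 : FiniteAdeleRing (𝓞 K) K))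

theorem locAdele322_mul (w : InfinitePlace K) (a b : w.Completion) :
    locAdele322 w a * locAdele322 w b = locAdele322 w (a * b) := by
  apply Prod.ext
  · show (Pi.mulSingle w a : InfiniteAdeleRing K) * Pi.mulSingle w b = Pi.mulSingle w (a * b)
    exact (Pi.mulSingle_mul w a b).symm
  · show (1 : FiniteAdeleRing (𝓞 K) K) * 1 = 1
    exact one_mul 1

theorem locAdele322_one (w : InfinitePlace K) : locAdele322 w (1 : w.Completion) = 1 := by
  apply Prod.ext
  · show (Pi.mulSingle w (1 : w.Completion) : InfiniteAdeleRing K) = 1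
    exact Pi.mulSingle_one w
  · rfl

/-- The local adele as an idele. -/
def locUnit322 (w : InfinitePlace K) (a : w.Completion) (ha : a ≠ 0) : (Adl K)ˣ where
  val := locAdele322 w a
  inv := locAdele322 w a⁻¹
  val_inv := by rw [locAdele322_mul, mul_inv_cancel₀ ha, locAdele322_one]
  inv_val := by rw [locAdele322_mul, inv_mul_cancel₀ ha, locAdele322_one]

/-- The scalar matrix of the local idele. -/
def zLoc322 (w : InfinitePlace K) (a : w.Completion) (ha : a ≠ 0) : G K :=
  Units.map (Matrix.scalar (Fin 2) : Adl K →+* Matrix (Fin 2) (Fin 2) (Adl K)).toMonoidHom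
    (locUnit322 w a ha)

theorem zLoc322_coe (w : InfinitePlace K) (a : w.Completion) (ha : a ≠ 0) :
    ((zLoc322 w a ha : G K) : Matrix (Fin 2) (Fin 2) (Adl K))
      = Matrix.scalar (Fin 2) (locAdele322 w a) := rfl

theorem zLoc322_apply (w : InfinitePlace K) (a : w.Completion) (ha : a ≠ 0) (i j : Fin 2) :
    ((zLoc322 w a ha : G K) : Matrix (Fin 2) (Fin 2) (Adl K)) i j
      = if i = j then locAdele322 w a else 0 := by
  rw [zLoc322_coe, Matrix.scalar_apply, Matrix.diagonal_apply]

theorem zLoc322_isArchPosScalar (w : InfinitePlace K) (a : w.Completion) (ha : a ≠ 0)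
    (r : ℝ) (hr : 0 < r) (har : InfinitePlace.Completion.extensionEmbedding w a = (r : ℂ)) :
    IsArchPosScalar w (zLoc322 w a ha) := by
  refine ⟨⟨?_, ?_⟩, r, hr, ?_⟩
  · intro w' hw' i j
    rw [zLoc322_apply]
    by_cases hij : i = j
    · subst hij
      simp only [if_true, Matrix.one_apply_eq]
      show (Pi.mulSingle w a : InfiniteAdeleRing K) w' = 1
      exact Pi.mulSingle_eq_of_ne hw' a
    · simp only [if_neg hij, Matrix.one_apply_ne hij]
      rfl
  · intro v
    refine Matrix.ext fun i j => ?_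
    show (((zLoc322 w a ha : G K) : Matrix (Fin 2) (Fin 2) (Adl K)) i j).2 v = _
    rw [zLoc322_apply]
    by_cases hij : i = j
    · subst hij
      simp only [if_true, Matrix.one_apply_eq]
      rfl
    · simp only [if_neg hij, Matrix.one_apply_ne hij]
      rfl
  · refine Matrix.ext fun i j => ?_
    show InfinitePlace.Completion.extensionEmbedding w
      ((((zLoc322 w a ha : G K) : Matrix (Fin 2) (Fin 2) (Adl K)) i j).1 w) = _
    rw [zLoc322_apply, Matrix.diagonal_apply]
    by_cases hij : i = j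
    · subst hij
      simp only [if_true]
      show InfinitePlace.Completion.extensionEmbedding w
        ((Pi.mulSingle w a : InfiniteAdeleRing K) w) = _
      rw [Pi.mulSingle_eq_same, har]
    · simp only [if_neg hij]
      show InfinitePlace.Completion.extensionEmbedding w ((0 : InfiniteAdeleRing K) w) = 0
      exact map_zero _

/-- The entries of a diagonal positive scalar. -/
theorem diagPos_coe322 {z : G K} (hz : IsDiagPosScalar z) :
    (z : Matrix (Fin 2) (Fin 2) (Adl K))
      = Matrix.scalar (Fin 2) ((z : Matrix (Fin 2) (Fin 2) (Adl K)) 0 0) := by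
  obtain ⟨hfin, r, hr, hinf⟩ := hz
  have hI : ∀ (w : InfinitePlace K) (i j : Fin 2),
      InfinitePlace.Completion.extensionEmbedding w
        (((z : Matrix (Fin 2) (Fin 2) (Adl K)) i j).1 w)
        = (Matrix.diagonal (fun _ => (r : ℂ)) : Matrix (Fin 2) (Fin 2) ℂ) i j := fun w i j =>
    congrFun (congrFun (hinf w) i) j
  have hF : ∀ (v : HeightOneSpectrum (𝓞 K)) (i j : Fin 2),
      ((z : Matrix (Fin 2) (Fin 2) (Adl K)) i j).2 v
        = (1 : Matrix (Fin 2) (Fin 2) (v.adicCompletion K)) i j := fun v i j =>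
    congrFun (congrFun (hfin v) i) j
  refine Matrix.ext fun i j => ?_
  rw [Matrix.scalar_apply, Matrix.diagonal_apply]
  by_cases hij : i = j
  · subst hij
    rw [if_pos rfl]
    apply Prod.ext
    · funext w
      apply (InfinitePlace.Completion.extensionEmbedding w).injective
      rw [hI w i i, hI w 0 0, Matrix.diagonal_apply_eq, Matrix.diagonal_apply_eq]
    · apply FiniteAdeleRing.ext
      intro v
      rw [hF v i i, hF v 0 0, Matrix.one_apply_eq, Matrix.one_apply_eq]
  · rw [if_neg hij]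
    apply Prod.ext
    · funext w
      apply (InfinitePlace.Completion.extensionEmbedding w).injective
      rw [hI w i j, Matrix.diagonal_apply_ne _ hij]
      exact (map_zero _).symm
    · apply FiniteAdeleRing.ext
      intro v
      rw [hF v i j, Matrix.one_apply_ne hij]
      rfl

theorem prod_locAdele322 (a : ∀ w : InfinitePlace K, w.Completion)
    (S : Finset (InfinitePlace K)) :
    (∏ w ∈ S, locAdele322 w (a w))
      = (((fun w' => if w' ∈ S then a w' else 1 : InfiniteAdeleRing K),
          (1 : FiniteAdeleRing (𝓞 K) K)) : Adl K) := by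
  induction S using Finset.induction_on with
  | empty =>
    rw [Finset.prod_empty]
    apply Prod.ext
    · funext w'
      show (1 : InfiniteAdeleRing K) w' = if w' ∈ (∅ : Finset (InfinitePlace K)) then a w' else 1
      rw [if_neg (Finset.notMem_empty _)]
      rfl
    · rfl
  | insert w S hw ih =>
    rw [Finset.prod_insert hw, ih]
    apply Prod.ext
    · funext w'
      show (Pi.mulSingle w (a w) : InfiniteAdeleRing K) w' * (if w' ∈ S then a w' else 1)
        = if w' ∈ insert w S then a w' else 1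
      by_cases h : w' = w
      · subst h
        rw [Pi.mulSingle_eq_same, if_neg hw, mul_one, if_pos (Finset.mem_insert_self _ _)]
      · rw [Pi.mulSingle_eq_of_ne h, one_mul]
        by_cases h' : w' ∈ S
        · rw [if_pos h', if_pos (Finset.mem_insert_of_mem h')]
        · rw [if_neg h', if_neg (by simp [h, h'])]
    · show (1 : FiniteAdeleRing (𝓞 K) K) * 1 = 1
      exact one_mul 1

/-- A diagonal positive scalar is the product of its local components. -/
theorem diagPos_eq_prod322 {z : G K} (hz : IsDiagPosScalar z) :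
    ∃ (a : ∀ w : InfinitePlace K, w.Completion) (ha : ∀ w, a w ≠ 0),
      (∀ w, IsArchPosScalar w (zLoc322 w (a w) (ha w))) ∧
        z = Units.map
          (Matrix.scalar (Fin 2) : Adl K →+* Matrix (Fin 2) (Fin 2) (Adl K)).toMonoidHom
          (∏ w : InfinitePlace K, locUnit322 w (a w) (ha w)) := by
  have hcoe := diagPos_coe322 hz
  obtain ⟨hfin, r, hr, hinf⟩ := hz
  set c : Adl K := (z : Matrix (Fin 2) (Fin 2) (Adl K)) 0 0 with hc
  have hemb : ∀ w : InfinitePlace K,
      InfinitePlace.Completion.extensionEmbedding w (c.1 w) = (r : ℂ) := by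
    intro w
    have := congrFun (congrFun (hinf w) 0) 0
    rw [Matrix.diagonal_apply_eq] at this
    exact this
  have hne : ∀ w : InfinitePlace K, c.1 w ≠ 0 := by
    intro w h0
    have := hemb w
    rw [h0, map_zero] at this
    exact (Complex.ofReal_ne_zero.mpr hr.ne') this.symm
  have hc2 : c.2 = 1 := by
    apply FiniteAdeleRing.ext
    intro v
    have := congrFun (congrFun (hfin v) 0) 0
    rw [Matrix.one_apply_eq] at this
    exact this
  refine ⟨fun w => c.1 w, hne, fun w => zLoc322_isArchPosScalar w _ _ r hr (hemb w), ?_⟩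
  apply Units.ext
  rw [hcoe]
  show Matrix.scalar (Fin 2) c
    = Matrix.scalar (Fin 2) (((∏ w : InfinitePlace K, locUnit322 w (c.1 w) (hne w) : (Adl K)ˣ)
        : Adl K))
  congr 1
  rw [Units.coe_prod]
  have h1 : ∀ w : InfinitePlace K, ((locUnit322 w (c.1 w) (hne w) : (Adl K)ˣ) : Adl K)
      = locAdele322 w (c.1 w) := fun w => rfl
  simp only [h1]
  rw [prod_locAdele322 (fun w => c.1 w) Finset.univ]
  apply Prod.ext
  · funext w'
    show c.1 w' = if w' ∈ (Finset.univ : Finset (InfinitePlace K)) then c.1 w' else 1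
    rw [if_pos (Finset.mem_univ _)]
  · exact hc2

/-- **Invariance under `Z⁺`**: a function which is right invariant under the positive scalars at
every infinite place is right invariant under the diagonal positive scalars. -/
theorem diagPos_inv322 {φ : G K → ℂ}
    (h : ∀ (w : InfinitePlace K) (z : G K), IsArchPosScalar w z → ∀ g : G K, φ (g * z) = φ g)
    {z : G K} (hz : IsDiagPosScalar z) (g : G K) : φ (g * z) = φ g := by
  obtain ⟨a, ha, harch, hprod⟩ := diagPos_eq_prod322 hz
  have key : ∀ (S : Finset (InfinitePlace K)) (g : G K),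
      φ (g * Units.map
          (Matrix.scalar (Fin 2) : Adl K →+* Matrix (Fin 2) (Fin 2) (Adl K)).toMonoidHom
          (∏ w ∈ S, locUnit322 w (a w) (ha w))) = φ g := by
    intro S
    induction S using Finset.induction_on with
    | empty => intro g; simp
    | insert w S hw ih =>
      intro g
      rw [Finset.prod_insert hw, map_mul, ← mul_assoc, ih]
      exact h w _ (harch w) g
  rw [hprod]
  exact key Finset.univ g

/-! ## 2. The Petersson norm as a real integral -/

theorem borelSpaceG322 : @BorelSpace (G K) _ borelG := ⟨rfl⟩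

/-- The statement of T2.07.00 (`SubTransl429`) for one frame. -/
def TranslInv322 (F : Frame K) : Prop :=
  ∀ (Φ : G K → ℂ), Continuous Φ → (∃ C : ℝ, ∀ g : G K, ‖Φ g‖ ≤ C) →
    (∀ (γ : GL (Fin 2) K) (g : G K), Φ (T1.ratG K γ * g) = Φ g) →
    (∀ z : G K, IsDiagPosScalar z → ∀ g : G K, Φ (g * z) = Φ g) →
    ∀ h : G K, ∫ g in F.D, Φ (g * h) ∂F.μ = ∫ g in F.D, Φ g ∂F.μ

theorem isFinite_restrict322 (F : Frame K) : IsFiniteMeasure (F.μ.restrict F.D) :=
  ⟨by rw [Measure.restrict_apply_univ]; exact F.fin⟩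

/-- `‖ψ‖² ≤ ∫_D |ψ|²` (equality when the integrand is integrable). -/
theorem nsq_le322 (F : Frame K) (ψ : G K → ℂ) :
    nsq F ψ ≤ ∫ g in F.D, ‖ψ g‖ ^ 2 ∂F.μ := by
  unfold nsq pair
  by_cases hi : Integrable (fun g => ψ g * (starRingEnd ℂ) (ψ g)) (F.μ.restrict F.D)
  · have h1 : (∫ g in F.D, ψ g * (starRingEnd ℂ) (ψ g) ∂F.μ).re
        = ∫ g in F.D, (ψ g * (starRingEnd ℂ) (ψ g)).re ∂F.μ := by
      have := integral_re (𝕜 := ℂ) hi
      simpa using this.symm
    rw [h1]
    apply le_of_eq
    congr 1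
    funext g
    rw [Complex.mul_conj, Complex.ofReal_re, Complex.normSq_eq_norm_sq]
  · rw [integral_undef hi]
    simp only [Complex.zero_re]
    exact integral_nonneg (fun g => by positivity)

/-- For a bounded continuous function, `‖φ‖² = ∫_D |φ|²`. -/
theorem nsq_eq322 (F : Frame K) {φ : G K → ℂ} (hc : Continuous φ)
    (hb : ∃ C : ℝ, ∀ g : G K, ‖φ g‖ ≤ C) :
    nsq F φ = ∫ g in F.D, ‖φ g‖ ^ 2 ∂F.μ := by
  have := borelSpaceG322 (K := K)
  have := isFinite_restrict322 F
  obtain ⟨B, hB⟩ := hb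
  have hi : Integrable (fun g => φ g * (starRingEnd ℂ) (φ g)) (F.μ.restrict F.D) := by
    have hcont : Continuous (fun g => φ g * (starRingEnd ℂ) (φ g)) :=
      hc.mul (Complex.continuous_conj.comp hc)
    refine Integrable.of_bound hcont.aestronglyMeasurable (B ^ 2)
      (Filter.Eventually.of_forall fun g => ?_)
    rw [norm_mul, RCLike.norm_conj, ← pow_two]
    exact pow_le_pow_left₀ (norm_nonneg _) (hB g) 2
  unfold nsq pair
  have h1 : (∫ g in F.D, φ g * (starRingEnd ℂ) (φ g) ∂F.μ).re
      = ∫ g in F.D, (φ g * (starRingEnd ℂ) (φ g)).re ∂F.μ := by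
    have := integral_re (𝕜 := ℂ) hi
    simpa using this.symm
  rw [h1]
  congr 1
  funext g
  rw [Complex.mul_conj, Complex.ofReal_re, Complex.normSq_eq_norm_sq]

/-- The KEY LEMMA for `|φ|²`. -/
theorem int_sq_transl322 {𝔫 : Ideal (𝓞 K)} (F : Frame K) (hTr : TranslInv322 F)
    {φ : G K → ℂ} (hφ : IsCuspFn 𝔫 φ) (h : G K) :
    ∫ g in F.D, ‖φ (g * h)‖ ^ 2 ∂F.μ = ∫ g in F.D, ‖φ g‖ ^ 2 ∂F.μ := by
  obtain ⟨B, hB⟩ := hφ.bdd
  have key := hTr (fun g => ((‖φ g‖ ^ 2 : ℝ) : ℂ))
    (Complex.continuous_ofReal.comp ((continuous_norm.comp hφ.cont).pow 2))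
    ⟨B ^ 2, fun g => by
      rw [Complex.norm_real, Real.norm_eq_abs, abs_of_nonneg (by positivity)]
      exact pow_le_pow_left₀ (norm_nonneg _) (hB g) 2⟩
    (fun γ g => by
      have := hφ.left_inv γ g
      show ((‖φ (T1.ratG K γ * g)‖ ^ 2 : ℝ) : ℂ) = ((‖φ g‖ ^ 2 : ℝ) : ℂ)
      unfold T1.ratG
      rw [this])
    (fun z hz g => by
      show ((‖φ (g * z)‖ ^ 2 : ℝ) : ℂ) = ((‖φ g‖ ^ 2 : ℝ) : ℂ)
      rw [diagPos_inv322 hφ.arch_scalar hz g]) h
  have e1 : ∫ g in F.D, ((‖φ (g * h)‖ ^ 2 : ℝ) : ℂ) ∂F.μ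
      = ((∫ g in F.D, ‖φ (g * h)‖ ^ 2 ∂F.μ : ℝ) : ℂ) := integral_ofReal
  have e2 : ∫ g in F.D, ((‖φ g‖ ^ 2 : ℝ) : ℂ) ∂F.μ
      = ((∫ g in F.D, ‖φ g‖ ^ 2 ∂F.μ : ℝ) : ℂ) := integral_ofReal
  have key' : ∫ g in F.D, ((‖φ (g * h)‖ ^ 2 : ℝ) : ℂ) ∂F.μ
      = ∫ g in F.D, ((‖φ g‖ ^ 2 : ℝ) : ℂ) ∂F.μ := key
  rw [e1, e2] at key'
  exact Complex.ofReal_injective key'

/-! ## 3. The bound for a general finite parameter space -/

/-- The general bound: `P` a second countable space with a finite measure `ρ`, `Y : P → G K`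
continuous, `v` dominated by the `ρ`-mean of `|φ(g Y(p))|`. -/
theorem meanBdd_general322 {𝔫 : Ideal (𝓞 K)} (F : Frame K) (hTr : TranslInv322 F)
    {P : Type} [TopologicalSpace P] [SecondCountableTopology P] [MeasurableSpace P]
    [OpensMeasurableSpace P] (ρ : Measure P) [IsFiniteMeasure ρ]
    (Y : P → G K) (hY : Continuous Y) {φ : G K → ℂ} (hφ : IsCuspFn 𝔫 φ)
    (v : G K → ℂ) (hv : ∀ g, ‖v g‖ ≤ ∫ p, ‖φ (g * Y p)‖ ∂ρ) :
    nsq F v ≤ ρ.real Set.univ ^ 2 * nsq F φ := by
  have := borelSpaceG322 (K := K)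
  have := isFinite_restrict322 F
  obtain ⟨B, hB⟩ := hφ.bdd
  have hcont : Continuous (Function.uncurry fun (g : G K) (p : P) => φ (g * Y p)) :=
    hφ.cont.comp (continuous_fst.mul (hY.comp continuous_snd))
  have hmain := abs_mean_bound322 (F.μ.restrict F.D) ρ (fun g p => φ (g * Y p))
    hcont.measurable B (fun g p => hB _) (∫ g in F.D, ‖φ g‖ ^ 2 ∂F.μ)
    (fun p => le_of_eq (int_sq_transl322 F hTr hφ (Y p))) v hv
  rw [nsq_eq322 F hφ.cont hφ.bdd]
  exact (nsq_le322 F v).trans hmain

/-! ## 4. Continuity of the parametrisations -/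

/-- The statement of T2.07.30 (`SubLocCont429`). -/
def LocCont322 (K : Type) [Field K] [NumberField K] : Prop :=
  ∀ (w : InfinitePlace K) (X : Type) [TopologicalSpace X] (h : X → G K),
    (∀ x, IsLocalAtInf w (h x)) →
    (∀ i j : Fin 2, Continuous fun x => infComp w (h x) i j) → Continuous h

theorem continuous_rotZ322 : Continuous rotZ := by
  refine continuous_matrix fun i j => ?_
  fin_cases i <;> fin_cases j <;> simp [rotZ] <;> fun_prop

theorem continuous_rotY322 : Continuous rotY := by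
  refine continuous_matrix fun i j => ?_
  fin_cases i <;> fin_cases j <;> simp [rotY] <;> fun_prop

theorem continuous_sphere322 (hL : LocCont322 K) (w : InfinitePlace K) (d : ℝ)
    (Y : ℝ → ℝ → G K) (hY : IsSphereAt w d Y) :
    Continuous (fun p : ℝ × ℝ => Y p.1 p.2) := by
  refine hL w (ℝ × ℝ) _ (fun p => (hY p.1 p.2).1) (fun i j => ?_)
  have h1 : (fun p : ℝ × ℝ => infComp w (Y p.1 p.2) i j)
      = fun p : ℝ × ℝ => (rotZ p.1 * rotY p.2 * torus d) i j := by
    funext p
    rw [(hY p.1 p.2).2]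
  rw [h1]
  have h2 : Continuous (fun p : ℝ × ℝ => rotZ p.1 * rotY p.2 * torus d) :=
    ((continuous_rotZ322.comp continuous_fst).matrix_mul
      (continuous_rotY322.comp continuous_snd)).matrix_mul continuous_const
  exact h2.matrix_elem i j

theorem continuous_circle322 (hL : LocCont322 K) (w : InfinitePlace K) (t : ℝ)
    (Y : ℝ → G K) (hY : IsCircleAt w t Y) : Continuous Y := by
  refine hL w ℝ _ (fun θ => (hY θ).1) (fun i j => ?_)
  have h1 : (fun θ : ℝ => infComp w (Y θ) i j) = fun θ : ℝ => (rotY θ * torus t) i j := by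
    funext θ
    rw [(hY θ).2]
  rw [h1]
  have h2 : Continuous (fun θ : ℝ => rotY θ * torus t) :=
    continuous_rotY322.matrix_mul continuous_const
  exact h2.matrix_elem i j

/-! ## 5. The pointwise bounds -/

/-- The parameter measure of the sphere means: Lebesgue measure on `(0, 2π] × (0, π]`. -/
def rhoS322 : Measure (ℝ × ℝ) :=
  (volume.restrict (Set.Ioc (0 : ℝ) (2 * Real.pi))).prod
    (volume.restrict (Set.Ioc (0 : ℝ) Real.pi))

instance : IsFiniteMeasure rhoS322 := by
  unfold rhoS322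
  infer_instance

/-- The parameter measure of the circle means: Lebesgue measure on `(0, 2π]`. -/
def rhoC322 : Measure ℝ := volume.restrict (Set.Ioc (0 : ℝ) (2 * Real.pi))

instance : IsFiniteMeasure rhoC322 := by
  unfold rhoC322
  infer_instance

/-- The sphere mean is dominated by the mean of `|φ|`. -/
theorem norm_sphereMean_le322 (Y : ℝ → ℝ → G K) (hY : Continuous (fun p : ℝ × ℝ => Y p.1 p.2))
    {φ : G K → ℂ} (hc : Continuous φ) (hb : ∃ C : ℝ, ∀ g : G K, ‖φ g‖ ≤ C) (g : G K) :
    ‖sphereMean Y φ g‖ ≤ ∫ p, ‖φ (g * Y p.1 p.2)‖ ∂rhoS322 := by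
  obtain ⟨B, hB⟩ := hb
  have hu : Continuous (fun p : ℝ × ℝ => φ (g * Y p.1 p.2)) :=
    hc.comp (continuous_const.mul hY)
  have hs : Continuous (fun p : ℝ × ℝ => ((Real.sin p.2 : ℝ) : ℂ)) := by fun_prop
  have hsle : ∀ p : ℝ × ℝ, ‖φ (g * Y p.1 p.2) * ((Real.sin p.2 : ℝ) : ℂ)‖
      ≤ ‖φ (g * Y p.1 p.2)‖ := by
    intro p
    rw [norm_mul, Complex.norm_real, Real.norm_eq_abs]
    exact mul_le_of_le_one_right (norm_nonneg _) (Real.abs_sin_le_one _)
  have hint : Integrable (fun p : ℝ × ℝ => φ (g * Y p.1 p.2) * ((Real.sin p.2 : ℝ) : ℂ))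
      rhoS322 :=
    Integrable.of_bound (hu.mul hs).aestronglyMeasurable B
      (Filter.Eventually.of_forall fun p => (hsle p).trans (hB _))
  have hintn : Integrable (fun p : ℝ × ℝ => ‖φ (g * Y p.1 p.2)‖) rhoS322 :=
    Integrable.of_bound hu.norm.aestronglyMeasurable B
      (Filter.Eventually.of_forall fun p => by
        rw [Real.norm_eq_abs, abs_of_nonneg (norm_nonneg _)]; exact hB _)
  have e1 : sphereMean Y φ g
      = ∫ p, φ (g * Y p.1 p.2) * ((Real.sin p.2 : ℝ) : ℂ) ∂rhoS322 := by
    unfold sphereMean rhoS322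
    rw [integral_prod _ hint, intervalIntegral.integral_of_le (by positivity)]
    simp only [intervalIntegral.integral_of_le Real.pi_pos.le]
  rw [e1]
  exact (norm_integral_le_integral_norm _).trans (integral_mono hint.norm hintn hsle)

/-- The circle mean is dominated by the mean of `|φ|`. -/
theorem norm_circleMean_le322 (Y : ℝ → G K) (φ : G K → ℂ) (g : G K) :
    ‖circleMean Y φ g‖ ≤ ∫ θ, ‖φ (g * Y θ)‖ ∂rhoC322 := by
  have e1 : circleMean Y φ g = ∫ θ, φ (g * Y θ) ∂rhoC322 := by
    unfold circleMean rhoC322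
    rw [intervalIntegral.integral_of_le (by positivity)]
  rw [e1]
  exact norm_integral_le_integral_norm _

/-! ## 6. The two clauses of `SubMeanBdd429` -/

/-- **Sphere means are bounded on the cusp functions.** -/
theorem sphereBdd322 {𝔫 : Ideal (𝓞 K)} (F : Frame K) (hTr : TranslInv322 F)
    (hL : LocCont322 K) (w : InfinitePlace K) (d : ℝ) (Y : ℝ → ℝ → G K)
    (hY : IsSphereAt w d Y) :
    ∃ C : ℝ, ∀ φ : G K → ℂ, IsCuspFn 𝔫 φ → nsq F (sphereMean Y φ) ≤ C * nsq F φ := by
  have hYc := continuous_sphere322 hL w d Y hY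
  exact ⟨rhoS322.real Set.univ ^ 2, fun φ hφ =>
    meanBdd_general322 F hTr rhoS322 (fun p : ℝ × ℝ => Y p.1 p.2) hYc hφ _
      (norm_sphereMean_le322 Y hYc hφ.cont hφ.bdd)⟩

/-- **Circle means are bounded on the cusp functions.** -/
theorem circleBdd322 {𝔫 : Ideal (𝓞 K)} (F : Frame K) (hTr : TranslInv322 F)
    (hL : LocCont322 K) (w : InfinitePlace K) (t : ℝ) (Y : ℝ → G K)
    (hY : IsCircleAt w t Y) :
    ∃ C : ℝ, ∀ φ : G K → ℂ, IsCuspFn 𝔫 φ → nsq F (circleMean Y φ) ≤ C * nsq F φ := by
  have hYc := continuous_circle322 hL w t Y hY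
  exact ⟨rhoC322.real Set.univ ^ 2, fun φ hφ =>
    meanBdd_general322 F hTr rhoC322 Y hYc hφ _ (norm_circleMean_le322 Y φ)⟩

end Fermat.Agent.LT.T2.H322

end
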