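import Mathlib
import Fermat.Agent.LT.H556.A0
import Fermat.Agent.LT.T1.Spec
import Fermat.Agent.LT.T2.Spec
import Fermat.Agent.LT.T2.H429.OpsSpec
import Fermat.Agent.LT.T2.H322.MeanBdd

/-!
# Row LT, tower T2, sub-leaf T2.07.15 (helper322): `SubMeanBdd429`, VERBATIM

OFF-MAIN.  `subMeanBdd322 : SubTransl429 K → SubLocCont429 K → SubMeanBdd429 K` against the bytes
of `LT/T2/H429/OpsSpec.lean` (helper429@dcf706097, sha256 657e0d9a).  The two hypotheses are the
sub-leaves T2.07.00 (KEY LEMMA) and T2.07.30 named in the registry row; of `Ctx429` only `t1` is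
used (as the premise of `SubTransl429`).
-/

set_option autoImplicit false

open IsDedekindDomain NumberField MeasureTheory
open Fermat.Agent.LT.H556.A0
open Fermat.Agent.LT.T2

noncomputable section

namespace Fermat.Agent.LT.T2.H322

variable {K : Type} [Field K] [NumberField K]

attribute [local instance] Fermat.Agent.LT.T2.borelG

/-- **T2.07.15** from T2.07.00 and T2.07.30. -/
theorem subMeanBdd322 (hTr : H429.SubTransl429 K) (hL : H429.SubLocCont429 K) :
    H429.SubMeanBdd429 K := by
  intro 𝔫 c F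
  have hTrF : TranslInv322 F := fun Φ h1 h2 h3 h4 h => hTr c.t1 F Φ h1 h2 h3 h4 h
  have hLoc : LocCont322 K := hL
  exact ⟨fun w _ d _ Y hY => sphereBdd322 F hTrF hLoc w d Y hY,
    fun w _ t _ Y hY => circleBdd322 F hTrF hLoc w t Y hY⟩

example (hTr : H429.SubTransl429 K) (hL : H429.SubLocCont429 K) : H429.SubMeanBdd429 K :=
  subMeanBdd322 hTr hL

end Fermat.Agent.LT.T2.H322

end
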